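import Fermat.Agent.LT.T2.AdapterW
import Fermat.Agent.LT.T7.H561.BlocksSpec

/-!
# Row LT, tower T7, leaf T7.L2.2.B1 = `WSpecC561` (owner helper144): THE CUT

OFF-MAIN.  Definitions, frozen Props of the sub-leaves, PROVED top.  Nothing assumed, no hole.
ADDITIVE (new names only, all ending in `144`).  Vocabulary: `T7/H561/BlocksSpec.lean`
(helper561@fa57d28b6, sha256 5ceeaa4d), `T7/Level2.lean` (sha256 15516646), `T2/AdapterW.lean`
(helper130@5bf799939), byte-identical copies.

    wSpecC_of144 : ClassFinC144 K' → EigSpanC144 K' → IwTranslC144 K' → ClassBasisC144 K'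
                     → H561.WSpecC561 K K'

## Why a cut (remark for the sub-architect)

`T2.finite_class130` gives the finiteness of the set of members of the eigenbasis of T2 which
have the same eigenvalue as `u j₀` for EVERY operator of the tower (`T2.IsOp`, convolutions by
spherical test functions included).  A class of `IsWSpec561` is defined by `EigData.AgreeOut`:
Hecke eigenvalues outside `S'` and sphere means only.  So the finiteness of a class needs one
more step (`ClassFinC144`): the eigenvalue of the convolution by the approximate identity of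
helper907 is DETERMINED by the eigenvalue functions of the sphere means.

## The sub-leaves

* **`ClassFinC144`** (W1, T2 vocabulary; the analytic leaf): in a joint eigenbasis of T2 over a
  totally complex field only finitely many members have the same eigenvalue functions of the
  sphere means as a given one.
* **`EigSpanC144`** (W2): an eigenfunction with data `C` (no Iwahori condition) is orthogonal
  to the members of the eigenbasis whose data do not agree with `C`, and is the finite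
  combination `∑_{j ∈ J} ⟨ψ, u_j⟩ u_j` over any finite set `J` containing the others.
* **`IwTranslC144`** (W3): the right translation by an Iwahori element along the orbit
  preserves the eigenfunctions of the level (without Iwahori condition) and the inner product;
  the inverse of an Iwahori element is one.
* **`ClassBasisC144`** (W4, linear algebra in a finite-dimensional class; uses W2, W3): the
  orthonormal basis of the Iwahori-invariant functions of ONE class, with the Parseval identity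
  of the class.
-/

set_option autoImplicit false
set_option linter.unusedSectionVars false
set_option linter.unusedVariables false
set_option linter.style.haveILetI false

open AutomorphicForm IsDedekindDomain NumberField MeasureTheory
open scoped ComplexConjugate

noncomputable section

namespace Fermat.Agent.LT.T7.H144W

open Fermat.Agent.LT.H556 Fermat.Agent.LT.H556.A0 Fermat.Agent.LT Fermat.Agent.LT.T7

attribute [local instance] Fermat.Agent.LT.T5.instMeasurableSpaceG

/-! ## 1. The sub-leaves -/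

section Leaves

variable (K : Type) [Field K] [NumberField K]

/-- **LEAF W1 = CLASS-FIN** (T2 vocabulary).
Proof.  Let `f_k = T2.H907.apx907 F 𝔫 (1 / (k + 1))` (the approximate identity of helper907:
`c · 1_{Pfin907}(h) · s(1 - defect907 h / η)`).  For a member `u` of the basis (norm one)
`conv F f_k u = c_k(u) • u` (`eig_op`, `IsOp.conv`), so
`c_k(u) = pair F (conv F f_k u) u = ∫ f_k(h) ⟨R(h) u, u⟩ dμ(h)` (Fubini; `f_k` continuous with
compact support, `u` bounded, `μ D < ∞`).  CLAIM: `⟨R(h) u, u⟩ = ⟨R(h) u', u'⟩` for all `h` in the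
support of `f_k` if `u`, `u'` have the same eigenvalue functions `m` of the sphere means.
Indeed `h = h_fin ∏_w h_w` (components), `h_fin ∈ U(𝔫)` fixes `u`; at a complex place
`h_w = z k₁ torus(d) k₂` (singular values: `z` a positive scalar, `k₁, k₂ ∈ U(2)`, `d ≥ 0`), and
for `φ` right invariant under `K_w` and the positive scalars at `w` with
`sphereMean Y φ = m w d • φ`: `⟨R(h_w) φ, u⟩ = ⟨R(torus d) φ, u⟩` (`R(k₁)` is unitary:
`T2.H941.PairC`, and fixes `u`) `= (m w d / 4π) ⟨φ, u⟩` for `d > 0` (integrate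
`⟨R(Y α β) φ, u⟩ = ⟨R(torus d) φ, u⟩` against `sin β dα dβ`), `= ⟨φ, u⟩` for `d = 0`; apply it
to `φ = R(h') u`, `h'` the product of the other components (the sphere means at `w` commute
with `R(h')`).  So `c_k(u) = c_k(u')` for all `k`, and `T2.finite_large130` for a `k` with
`|c_k(u j₀)| > 1/2` (`T2.large_of_approx130`) bounds the class, as in `T2.finite_class130`. -/
def ClassFinC144 : Prop :=
  (∀ w : InfinitePlace K, w.IsComplex) → ∀ 𝔫 : Ideal (𝓞 K), 𝔫 ≠ ⊥ → ∀ (F : T2.Frame K)
    (ι : Type) (u : ι → G K → ℂ) (m : ι → InfinitePlace K → ℝ → ℂ)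
    (a b : ι → HeightOneSpectrum (𝓞 K) → ℂ), T2.IsCuspBasisPlus 𝔫 F u m a b →
    ∀ j₀ : ι, {j : ι | ∀ (w : InfinitePlace K) (d : ℝ), 0 < d → m j w d = m j₀ w d}.Finite

/-- **LEAF W2 = EIG-SPAN.**
Proof.  (i) If `b` differs at `v ∤ 𝔫`: `S_v` is unitary (`T2.OpsAdj`, first clause) and
`|b_j| = 1`; if `a` differs: `T_v* = S_v⁻¹ T_v` (second clause) and `conj a_j = a_j conj b_j`;
if `m` differs at `(w, d)`: the sphere mean is self-adjoint (third clause) and `m_j` is real
(`IsWBasis130.unitary`).  Coset systems, scalar uniformisers and sphere parametrisations exist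
(`T1.heckeCoset`, assets of `T2/H566`).  (ii) `φ = ψ - ∑_{j ∈ J} ⟨ψ, u_j⟩ u_j` is a cusp function
of the level, `⟨φ, u_j⟩ = 0` for every `j` ((i) and orthonormality), so `⟨φ, φ⟩ = 0`
(`parseval`) and `φ = 0` (`T2.PairDefinite`). -/
def EigSpanC144 : Prop :=
  (∀ w : InfinitePlace K, w.IsComplex) → ∀ 𝔫 : Ideal (𝓞 K), 𝔫 ≠ ⊥ → ∀ R : Frame5 K,
    IsFrame5 R → ∀ (o : ℕ → HeightOneSpectrum (𝓞 K)) (ι : Type) (u : ι → G K → ℂ)
    (C₀ : ι → EigData K), T2.IsWBasis130 𝔫 R 0 o u C₀ →
    ∀ S : Finset (HeightOneSpectrum (𝓞 K)),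
      (∀ v : HeightOneSpectrum (𝓞 K), v.asIdeal ∣ 𝔫 → v ∈ S) →
    ∀ (ψ : G K → ℂ) (C : EigData K), IsEigFn 𝔫 R.r 0 o ψ C →
      (∀ j : ι, ¬ C.AgreeOut S (C₀ j) → T5.innerD R.μ R.F ψ (u j) = 0) ∧
      ∀ J : Finset ι, (∀ j : ι, C.AgreeOut S (C₀ j) → j ∈ J) →
        ∀ x : G K, ψ x = ∑ j ∈ J, T5.innerD R.μ R.F ψ (u j) * u j x

/-- **LEAF W3 = IW-TRANSL.**
Proof.  `i` is trivial at infinity and outside the orbit, integral with integral inverse at the
places of the orbit: it normalises `U(𝔫)` (`i⁻¹ u i - 1 = i⁻¹ (u - 1) i`, the closure of `𝔫` in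
`𝒪_v` is an ideal), commutes with the elements supported at the infinite places and at the
places prime to `𝔫` (the orbit divides `𝔫`); the ray generator is central; the constant term of
a right translate is the right translate of the constant term.  The inner product:
`T2.H941.PairC` (third clause; the functions are in `IsAut0`), or `TranslInvC` of helper193's
cut.  The inverse: the three conditions are stable under inversion (components). -/
def IwTranslC144 : Prop :=
  ∀ 𝔫 : Ideal (𝓞 K), 𝔫 ≠ ⊥ → ∀ R : Frame5 K, IsFrame5 R →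
    ∀ (l : ℕ) (o : ℕ → HeightOneSpectrum (𝓞 K)), (∀ j < l, (o j).asIdeal ∣ 𝔫) →
    ∀ i : G K, (∀ w : InfinitePlace K, TrivAtInf w i) →
      (∀ v : HeightOneSpectrum (𝓞 K), (∀ j < l, v ≠ o j) → TrivAtFin v i) →
      (∀ j < l, T5.InIwahori (o j) i) →
      (∀ (ψ : G K → ℂ) (C : EigData K), IsEigFn 𝔫 R.r 0 o ψ C →
        IsEigFn 𝔫 R.r 0 o (fun x => ψ (x * i)) C) ∧
      (∀ ψ χ : G K → ℂ, IsWFn 𝔫 R.r 0 o ψ → IsWFn 𝔫 R.r 0 o χ →
        T5.innerD R.μ R.F (fun x => ψ (x * i)) (fun x => χ (x * i))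
          = T5.innerD R.μ R.F ψ χ) ∧
      ((∀ w : InfinitePlace K, TrivAtInf w i⁻¹) ∧
        (∀ v : HeightOneSpectrum (𝓞 K), (∀ j < l, v ≠ o j) → TrivAtFin v i⁻¹) ∧
        ∀ j < l, T5.InIwahori (o j) i⁻¹)

/-- **LEAF W4 = CLASS-BASIS** (linear algebra in ONE class; uses W2 and W3).
`J` = the (finite) class of `j₀` in the eigenbasis `u` of the level WITHOUT Iwahori condition;
`V = span (u j)_{j ∈ J}`; `V^I` = the Iwahori-invariant members of `V`.
Proof.  `V ≅ ℂ^J` (orthonormality), `V^I` corresponds to a subspace `U ⊆ EuclideanSpace ℂ J`;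
`v` = the image of an orthonormal basis of `U` (`stdOrthonormalBasis`), `n = finrank U`;
`innerD` is sesquilinear on finite combinations of bounded continuous functions.
(1) `u j`, `j ∈ J`, is an eigenfunction for `C₀ j₀` (the data agree outside `S` = the divisors
of `𝔫` and at the positive radii), so is every combination (`T2/H886/CuspAlg`, linearity of the
Hecke sums and of the sphere means), and `v a` is Iwahori invariant by construction.
(3) an eigenfunction `ψ` of `W` with data `C'` agreeing with `C₀ j₀` is in `V` (W2, second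
clause, for the level without Iwahori condition) and Iwahori invariant: in `V^I`.
(6) linearity in the first variable.
(5) for `ψ ∈ W`: `E ψ = ∑_{j ∈ J} ⟨ψ, u_j⟩ u_j` is Iwahori invariant: for an Iwahori element `i`
both `R(i) E ψ` and `E ψ` are in `V` (W3 and W2 for `R(i) u_j`) and for `j' ∈ J`:
`⟨R(i) E ψ, u_j'⟩ = ⟨E ψ, R(i⁻¹) u_j'⟩ = ⟨ψ, R(i⁻¹) u_j'⟩ = ⟨R(i) ψ, u_j'⟩ = ⟨ψ, u_j'⟩
= ⟨E ψ, u_j'⟩` (W3: unitarity; `R(i⁻¹) u_j' ∈ V`; `ψ - E ψ ⊥ V`).  So `E ψ ∈ V^I`,
`⟨ψ, v_a⟩ = ⟨E ψ, v_a⟩` and `∑_a |⟨E ψ, v_a⟩|² = ‖E ψ‖² = ∑_{j ∈ J} |⟨ψ, u_j⟩|²`. -/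
def ClassBasisC144 : Prop :=
  EigSpanC144 K → IwTranslC144 K →
  (∀ w : InfinitePlace K, w.IsComplex) → ∀ 𝔫 : Ideal (𝓞 K), 𝔫 ≠ ⊥ → ∀ R : Frame5 K,
    IsFrame5 R → ∀ (l : ℕ) (o : ℕ → HeightOneSpectrum (𝓞 K)), (∀ j < l, (o j).asIdeal ∣ 𝔫) →
    ∀ S : Finset (HeightOneSpectrum (𝓞 K)),
      (∀ v : HeightOneSpectrum (𝓞 K), v ∈ S ↔ v.asIdeal ∣ 𝔫) →
    ∀ (ι : Type) (u : ι → G K → ℂ) (C₀ : ι → EigData K), T2.IsWBasis130 𝔫 R 0 o u C₀ →
    ∀ (j₀ : ι) (J : Finset ι), (∀ j : ι, j ∈ J ↔ (C₀ j).AgreeOut S (C₀ j₀)) →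
      ∃ (n : ℕ) (v : Fin n → G K → ℂ),
        (∀ a, IsEigFn 𝔫 R.r l o (v a) (C₀ j₀)) ∧
        (∀ a b, T5.innerD R.μ R.F (v a) (v b) = if a = b then 1 else 0) ∧
        (∀ (ψ : G K → ℂ) (C' : EigData K), IsEigFn 𝔫 R.r l o ψ C' →
          C'.AgreeOut S (C₀ j₀) → ∃ c : Fin n → ℂ, ∀ x : G K, ψ x = ∑ a, c a * v a x) ∧
        (∀ (a : Fin n) (χ : G K → ℂ), IsWFn 𝔫 R.r 0 o χ →
          (∀ j ∈ J, T5.innerD R.μ R.F (u j) χ = 0) → T5.innerD R.μ R.F (v a) χ = 0) ∧
        ∀ ψ : G K → ℂ, IsWFn 𝔫 R.r l o ψ →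
          ∑ a, ‖T5.innerD R.μ R.F ψ (v a)‖ ^ 2 = ∑ j ∈ J, ‖T5.innerD R.μ R.F ψ (u j)‖ ^ 2

end Leaves

end Fermat.Agent.LT.T7.H144W

end
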