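import Fermat.Agent.LT.T7.H144.WSpecCut

/-!
# Row LT, tower T7, leaf T7.L2.2.B1 = `WSpecC561` (owner helper144): THE TOP OF THE CUT

OFF-MAIN.  PROVED:

    wSpecC_of144 : ClassFinC144 K' → EigSpanC144 K' → IwTranslC144 K' → ClassBasisC144 K'
                     → H561.WSpecC561 K K'

The index set is the quotient of the index set of the eigenbasis of T2 (level `𝔑₀`, no Iwahori
condition) by `EigData.AgreeOut S'`; regrouping of the Parseval series by classes.
-/

set_option autoImplicit false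
set_option linter.unusedSectionVars false
set_option linter.unusedVariables false
set_option linter.style.haveILetI false

open AutomorphicForm IsDedekindDomain NumberField MeasureTheory
open scoped ComplexConjugate

noncomputable section

namespace Fermat.Agent.LT.T7.H144W

open Fermat.Agent.LT.H556 Fermat.Agent.LT.H556.A0 Fermat.Agent.LT Fermat.Agent.LT.T7

attribute [local instance] Fermat.Agent.LT.T5.instMeasurableSpaceG

section Tools

variable {K : Type} [Field K] [NumberField K]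

theorem agreeOut_refl144 (S : Finset (HeightOneSpectrum (𝓞 K))) (D : EigData K) :
    D.AgreeOut S D :=
  ⟨fun _ _ => ⟨rfl, rfl⟩, fun _ _ _ => rfl⟩

theorem agreeOut_symm144 {S : Finset (HeightOneSpectrum (𝓞 K))} {D D' : EigData K}
    (h : D.AgreeOut S D') : D'.AgreeOut S D :=
  ⟨fun w hw => ⟨(h.1 w hw).1.symm, (h.1 w hw).2.symm⟩, fun w d hd => (h.2 w d hd).symm⟩

theorem agreeOut_trans144 {S : Finset (HeightOneSpectrum (𝓞 K))} {D D' D'' : EigData K}
    (h : D.AgreeOut S D') (h' : D'.AgreeOut S D'') : D.AgreeOut S D'' :=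
  ⟨fun w hw => ⟨(h.1 w hw).1.trans (h'.1 w hw).1, (h.1 w hw).2.trans (h'.1 w hw).2⟩,
    fun w d hd => (h.2 w d hd).trans (h'.2 w d hd)⟩

/-- Forgetting the Iwahori condition. -/
theorem isWFn_zero_of144 {𝔫 : Ideal (𝓞 K)} {r : G K} (hr : T5.IsRayGen r) {l : ℕ}
    {o : ℕ → HeightOneSpectrum (𝓞 K)} {ψ : G K → ℂ} (h : IsWFn 𝔫 r l o ψ) :
    IsWFn 𝔫 r 0 o ψ :=
  (T2.isWFn_zero_iff130 hr o ψ).2 (T2.isCuspFn_of_isWFn130 h)

theorem isEigFn_zero_of144 {𝔫 : Ideal (𝓞 K)} {r : G K} (hr : T5.IsRayGen r) {l : ℕ}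
    {o : ℕ → HeightOneSpectrum (𝓞 K)} {ψ : G K → ℂ} {C : EigData K}
    (h : IsEigFn 𝔫 r l o ψ C) : IsEigFn 𝔫 r 0 o ψ C :=
  ⟨isWFn_zero_of144 hr h.inv, h.hecke, h.mean⟩

/-- The inner product is hermitian. -/
theorem innerD_conj144 (μ : Measure (G K)) (F : Set (G K)) (e f : G K → ℂ) :
    T5.innerD μ F e f = conj (T5.innerD μ F f e) := by
  unfold T5.innerD
  rw [← integral_conj]
  refine integral_congr_ae (Filter.Eventually.of_forall fun x => ?_)
  simp only [map_mul, Complex.conj_conj]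
  ring

end Tools

section Top

variable {K K' : Type} [Field K] [NumberField K] [Field K'] [NumberField K'] [Algebra K K']

/-- **THE TOP OF THE CUT.** -/
theorem wSpecC_of144 (hCF : ClassFinC144 K') (hES : EigSpanC144 K') (hIW : IwTranslC144 K')
    (hCB : ClassBasisC144 K') : H561.WSpecC561 K K' := by
  classical
  intro ℓ hcyc hℓ htc Φ hΦ hconst Dt hDt
  -- `K'` is totally complex
  have hcx : ∀ w : InfinitePlace K', w.IsComplex := by
    intro w
    by_contra h
    have hr : w.IsReal := InfinitePlace.not_isComplex_iff_isReal.1 h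
    have h2 := InfinitePlace.IsReal.comap (algebraMap K K') hr
    exact (InfinitePlace.not_isReal_iff_isComplex.2 (htc _)) h2
  -- the bad element `1`
  have hbad1 : Dt.IsBad (1 : G K') :=
    ⟨fun w => (H129.trivAtInf_iff129 w 1).2 (map_one _),
      fun v _ => (H129.trivAtFin_iff129 v 1).2 (map_one _)⟩
  have hcomp := hDt.comp 1 hbad1
  have hR : IsFrame5 Dt.R' := hcomp.frame'
  have hne : Dt.𝔑 1 ≠ ⊥ := by
    intro h
    have h1 : Dt.𝔫 1 = ⊥ :=
      (Ideal.map_eq_bot_iff_of_injective (RingOfIntegers.algebraMap.injective K K')).1 h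
    exact hcomp.level_ne h1
  have h𝔑 : Dt.𝔑₀ ≠ ⊥ := by
    intro h
    have h1 := hDt.level_g 1 hbad1
    rw [h] at h1
    exact hne (le_bot_iff.1 h1)
  have horb : ∀ j < ℓ, (Dt.o j).asIdeal ∣ Dt.𝔑₀ :=
    fun j _ => (hDt.mem_S' _).1 (hDt.orbit_level j)
  -- the eigenbasis of T2
  obtain ⟨ι₀, u, m, a, b, hB⟩ :=
    T2.cuspSpecPlus_closed K' Dt.𝔑₀ h𝔑 (T2.frameOf130 Dt.R' hR)
  have hW := T2.isWBasis_of_plus130 hcx h𝔑 Dt.R' hR Dt.o hB
  set C₀ : ι₀ → EigData K' := fun j => ⟨a j, b j, m j⟩ with hC₀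
  have hSdvd : ∀ v : HeightOneSpectrum (𝓞 K'), v.asIdeal ∣ Dt.𝔑₀ → v ∈ Dt.S' :=
    fun v hv => (hDt.mem_S' v).2 hv
  -- the classes are finite
  have hfin : ∀ j₀ : ι₀, {j : ι₀ | (C₀ j).AgreeOut Dt.S' (C₀ j₀)}.Finite := fun j₀ =>
    (hCF hcx Dt.𝔑₀ h𝔑 _ ι₀ u m a b hB j₀).subset fun j hj w d hd => hj.2 w d hd
  -- the quotient
  let st : Setoid ι₀ :=
    ⟨fun j j' => (C₀ j).AgreeOut Dt.S' (C₀ j'),
      ⟨fun j => agreeOut_refl144 _ _, agreeOut_symm144, agreeOut_trans144⟩⟩
  have hst : ∀ j j' : ι₀, st.r j j' ↔ (C₀ j).AgreeOut Dt.S' (C₀ j') := fun _ _ => Iff.rfl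
  set J : Quotient st → Finset ι₀ := fun q => (hfin q.out).toFinset with hJ
  have hJmem : ∀ (q : Quotient st) (j : ι₀), j ∈ J q ↔ (C₀ j).AgreeOut Dt.S' (C₀ q.out) :=
    fun q j => (hfin q.out).mem_toFinset
  have hJmk : ∀ (q : Quotient st) (j : ι₀), j ∈ J q ↔ Quotient.mk st j = q := by
    intro q j
    rw [hJmem]
    constructor
    · intro h
      have h1 : Quotient.mk st j = Quotient.mk st q.out := Quotient.sound h
      rw [h1, Quotient.out_eq]
    · intro h
      have h1 : Quotient.mk st j = Quotient.mk st q.out := by rw [h, Quotient.out_eq]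
      exact Quotient.exact h1
  -- the bases of the classes
  have key := fun q : Quotient st =>
    hCB hES hIW hcx Dt.𝔑₀ h𝔑 Dt.R' hR ℓ Dt.o horb Dt.S' hDt.mem_S' ι₀ u C₀ hW q.out (J q)
      (hJmem q)
  choose n v hv using key
  refine ⟨Quotient st, n, fun q => C₀ q.out, v, ?_⟩
  have hr := hR.ray
  refine
    { countable := ?_
      unitary := fun q => hW.unitary q.out Dt.S' hSdvd
      distinct := ?_
      basis := fun q => ⟨(hv q).1, (hv q).2.1, (hv q).2.2.1⟩
      orth := ?_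
      complete := ?_
      cover := ?_ }
  · haveI := hW.countable
    exact (Quotient.mk_surjective (s := st)).countable
  · intro q q' h
    have h1 : Quotient.mk st q.out = Quotient.mk st q'.out := Quotient.sound h
    rwa [Quotient.out_eq, Quotient.out_eq] at h1
  · intro q q' x x' hqq
    refine (hv q).2.2.2.1 x (v q' x') (isWFn_zero_of144 hr ((hv q').1 x').inv) ?_
    intro j hj
    rw [innerD_conj144]
    have h0 : T5.innerD Dt.R'.μ Dt.R'.F (v q' x') (u j) = 0 := by
      refine (hES hcx Dt.𝔑₀ h𝔑 Dt.R' hR Dt.o ι₀ u C₀ hW Dt.S' hSdvd (v q' x') (C₀ q'.out)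
        (isEigFn_zero_of144 hr ((hv q').1 x'))).1 j ?_
      intro hag
      apply hqq
      have h1 : Quotient.mk st j = q := (hJmk q j).1 hj
      have h2 : Quotient.mk st j = q' := (hJmk q' j).1 ((hJmem q' j).2 (agreeOut_symm144 hag))
      rw [← h1, h2]
    rw [h0, map_zero]
  · intro ψ hψ
    have hψ0 := isWFn_zero_of144 hr hψ
    have hpar := hW.parseval ψ hψ0
    set f : ι₀ → ℝ := fun j => ‖T5.innerD Dt.R'.μ Dt.R'.F ψ (u j)‖ ^ 2 with hf
    set N : ℝ := (T5.innerD Dt.R'.μ Dt.R'.F ψ ψ).re with hN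
    set h : (Σ q : Quotient st, Fin (n q)) → ℝ :=
      fun p => ‖T5.innerD Dt.R'.μ Dt.R'.F ψ (v p.1 p.2)‖ ^ 2 with hh
    -- grouping by classes
    have hset : ∀ q : Quotient st, (Quotient.mk st ⁻¹' {q}) = ((J q : Finset ι₀) : Set ι₀) := by
      intro q
      ext j
      simp only [Set.mem_preimage, Set.mem_singleton_iff, Finset.mem_coe]
      exact (hJmk q j).symm
    have hA : HasSum (fun q : Quotient st => ∑ j ∈ J q, f j) N := by
      have h1 := hpar.tsum_fiberwise (Quotient.mk st)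
      have hfun : (fun q : Quotient st => ∑' b : ↥(Quotient.mk st ⁻¹' {q}), f b)
          = fun q : Quotient st => ∑ j ∈ J q, f j := by
        funext q
        rw [tsum_congr_set_coe f (hset q), Finset.tsum_subtype']
      rw [hfun] at h1
      exact h1
    have hg : ∀ q : Quotient st, ∑ x : Fin (n q), h ⟨q, x⟩ = ∑ j ∈ J q, f j :=
      fun q => (hv q).2.2.2.2 ψ hψ
    have hA' : HasSum (fun q : Quotient st => ∑ x : Fin (n q), h ⟨q, x⟩) N := by
      have hfun : (fun q : Quotient st => ∑ x : Fin (n q), h ⟨q, x⟩)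
          = fun q : Quotient st => ∑ j ∈ J q, f j := funext hg
      rw [hfun]
      exact hA
    have hfib : ∀ q : Quotient st,
        HasSum (fun x : Fin (n q) => h ⟨q, x⟩) (∑ x : Fin (n q), h ⟨q, x⟩) :=
      fun q => hasSum_fintype _
    have hsum : Summable h := by
      refine (summable_sigma_of_nonneg (fun p => by positivity)).2
        ⟨fun q => (hfib q).summable, ?_⟩
      have hfun : (fun q : Quotient st => ∑' x : Fin (n q), h ⟨q, x⟩)
          = fun q : Quotient st => ∑ x : Fin (n q), h ⟨q, x⟩ :=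
        funext fun q => tsum_fintype _
      rw [hfun]
      exact hA'.summable
    exact hA'.sigma_of_hasSum hfib hsum
  · intro ψ C' hψ hne0
    by_contra hcon
    push Not at hcon
    obtain ⟨x, hx⟩ := hne0
    apply hx
    have h1 := (hES hcx Dt.𝔑₀ h𝔑 Dt.R' hR Dt.o ι₀ u C₀ hW Dt.S' hSdvd ψ C'
      (isEigFn_zero_of144 hr hψ)).2 ∅ (fun j hj => absurd ?_ (hcon (Quotient.mk st j))) x
    · rw [h1, Finset.sum_empty]
    · have h2 : st.r (Quotient.mk st j).out j := Quotient.exact (Quotient.out_eq _)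
      exact agreeOut_trans144 hj (agreeOut_symm144 ((hst _ _).1 h2))

end Top

end Fermat.Agent.LT.T7.H144W

end
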