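import Fermat.Agent.LT.T7.H193.ProjSpec
import Fermat.Agent.LT.T5.H599.Diag

/-!
# helper144 — leaf PROJ.1 `TranslInvC` of the cut of helper193 (`LT/T7/H193/ProjSpec.lean`)

VERBATIM, unconditional.  OFF-MAIN.  `F` is a fundamental domain for `GL₂(K) × ℤ`
(`isFundamentalDomain599`, helper599), so is `F h`; `IsFundamentalDomain.setIntegral_eq`.
-/

set_option autoImplicit false
set_option linter.unusedSectionVars false
set_option linter.style.haveILetI false

open IsDedekindDomain NumberField MeasureTheory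

noncomputable section

namespace Fermat.Agent.LT.T7.H144

open Fermat.Agent.LT.H556 Fermat.Agent.LT.H556.A0 Fermat.Agent.LT Fermat.Agent.LT.T5
open Fermat.Agent.LT.T5.H599

attribute [local instance] Fermat.Agent.LT.T5.instMeasurableSpaceG

variable {K : Type} [Field K] [NumberField K]

/-- Right invariance under the powers of `r`. -/
theorem right_zpow_inv144f {r : G K} {Φ : G K → ℂ} (hΦ : ∀ x : G K, Φ (x * r) = Φ x) (n : ℤ) :
    ∀ x : G K, Φ (x * r ^ n) = Φ x := by
  induction n using Int.induction_on with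
  | zero => intro x; rw [zpow_zero, mul_one]
  | succ k ih =>
    intro x
    rw [zpow_add_one, ← mul_assoc, hΦ, ih]
  | pred k ih =>
    intro x
    have h := hΦ (x * r ^ (-(k : ℤ) - 1))
    rw [mul_assoc, ← zpow_add_one, sub_add_cancel] at h
    rw [← h, ih]

/-- **LEAF PROJ.1 = TRANSL-INV**, core. -/
theorem translInv_core144f (hAN : T1.AdNormC K) {μ : Measure (G K)} {F : Set (G K)}
    (hF : IsFrame μ F) {r : G K} (hr : IsRayGen r) (Φ : G K → ℂ)
    (h1 : ∀ (γ : GL (Fin 2) K) (x : G K), Φ (ratG γ * x) = Φ x)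
    (h2 : ∀ x : G K, Φ (x * r) = Φ x) (h : G K) :
    ∫ x in F, Φ (x * h) ∂μ = ∫ x in F, Φ x ∂μ := by
  haveI := hF.haar
  haveI := countable_gam599 K
  haveI : BorelSpace (G K) := ⟨rfl⟩
  letI := act599 hr
  haveI := measurableConstSMul599 hr
  haveI := smulInvariantMeasure599 μ hr
  have hD : IsFundamentalDomain (Gam599 K) F μ := isFundamentalDomain599 hAN hF hr
  -- right translation preserves the measure
  have hmp : MeasurePreserving (fun x : G K => x * h⁻¹) μ μ :=
    ⟨(continuous_mul_const h⁻¹).measurable, by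
      ext A hA
      rw [Measure.map_apply (continuous_mul_const h⁻¹).measurable hA]
      exact hF.right_inv h⁻¹ A hA⟩
  have hD' : IsFundamentalDomain (Gam599 K) ((fun x : G K => x * h⁻¹) ⁻¹' F) μ := by
    refine hD.preimage_of_equiv hmp.quasiMeasurePreserving (e := id) Function.bijective_id ?_
    intro g x
    show iota599 hr g * x * h⁻¹ = iota599 hr g * (x * h⁻¹)
    rw [mul_assoc]
  have hinv : ∀ (g : Gam599 K) (x : G K), Φ (g • x) = Φ x := by
    intro g x
    show Φ (iota599 hr g * x) = Φ x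
    rw [iota_apply599, mul_assoc, h1, zpow_commute599 hr, right_zpow_inv144f h2]
  have hcv : ∫ x in (fun x : G K => x * h⁻¹) ⁻¹' F, Φ (x * h⁻¹ * h) ∂μ
      = ∫ x in F, Φ (x * h) ∂μ :=
    hmp.setIntegral_preimage_emb (MeasurableEquiv.mulRight h⁻¹).measurableEmbedding
      (fun x => Φ (x * h)) F
  rw [← hcv]
  simp only [inv_mul_cancel_right]
  exact hD'.setIntegral_eq hD hinv

/-- **LEAF PROJ.1 = TRANSL-INV**, verbatim. -/
theorem translInvC144 (K : Type) [Field K] [NumberField K] : H193.TranslInvC K :=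
  fun hAN R hR Φ h1 h2 h => translInv_core144f hAN hR.frame hR.ray Φ h1 h2 h

end Fermat.Agent.LT.T7.H144

end
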